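import Mathlib
import Fermat.Agent.S05.Core.Defs
import Fermat.Agent.S13.Iface.DP

/-!
# S13 / PCore / Basic (owner: helper10): degree, leading coefficient and roots of `preΨ'_p`
for the curve `legendre α β`.  Statements FROZEN.
-/

set_option autoImplicit false

namespace Fermat.Agent.S13.PCore

open Fermat.Agent.S05 Polynomial

/-- `natDegree preΨ'_p = (p² - 1) / 2` for odd `p` with `(p : K) ≠ 0`. -/
theorem natDegree_dp {K : Type*} [Field K] (α β : K) {p : ℕ} (hodd : Odd p) (hpK : (p : K) ≠ 0) :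
    ((legendre α β).preΨ' p).natDegree = (p ^ 2 - 1) / 2 := by
  rw [(legendre α β).natDegree_preΨ' hpK, if_neg (Nat.not_even_iff_odd.mpr hodd)]

/-- `leadingCoeff preΨ'_p = p` for odd `p` with `(p : K) ≠ 0`. -/
theorem leadingCoeff_dp {K : Type*} [Field K] (α β : K) {p : ℕ} (hodd : Odd p)
    (hpK : (p : K) ≠ 0) : ((legendre α β).preΨ' p).leadingCoeff = (p : K) := by
  rw [(legendre α β).leadingCoeff_preΨ' hpK, if_neg (Nat.not_even_iff_odd.mpr hodd)]

/-- `preΨ'_p ≠ 0` if `(p : K) ≠ 0`. -/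
theorem dp_ne_zero {K : Type*} [Field K] (α β : K) {p : ℕ} (hpK : (p : K) ≠ 0) :
    (legendre α β).preΨ' p ≠ 0 := by
  exact (legendre α β).preΨ'_ne_zero hpK

/-- A nonzero element killed by a prime `p` is not killed by any `1 ≤ k < p`. -/
theorem nsmul_ne_zero_of_prime {G : Type*} [AddCommGroup G] {Q : G} {p : ℕ} (hp : p.Prime)
    (hQ : Q ≠ 0) (hpQ : p • Q = 0) : ∀ k : ℕ, 1 ≤ k → k < p → k • Q ≠ 0 := by
  intro k hk1 hkp hkQ
  have h1 : addOrderOf Q ∣ p := addOrderOf_dvd_of_nsmul_eq_zero hpQ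
  have h2 : addOrderOf Q ∣ k := addOrderOf_dvd_of_nsmul_eq_zero hkQ
  rcases (Nat.dvd_prime hp).mp h1 with h | h
  · exact hQ (AddMonoid.addOrderOf_eq_one_iff.mp h)
  · rw [h] at h2
    exact absurd (Nat.le_of_dvd (by omega) h2) (by omega)

/-- The abscissa of a (nonzero) `p`-torsion point is a root of `preΨ'_p`. -/
theorem eval_eq_zero_of_torsion {K : Type*} [Field K] (h2 : (2 : K) ≠ 0) {α β : K} {G : Type*}
    [AddCommGroup G] (M : Model K α β G) {p : ℕ} (hp : p.Prime) (hp5 : 5 ≤ p) {Q : G} {X Y : K}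
    (hQ : M.coord Q = some (X, Y)) (hpQ : p • Q = 0) :
    ((legendre α β).preΨ' p).eval X = 0 := by
  exact (DP_torsion h2 M hQ (hp.odd_of_ne_two (by omega)) hp5
    (nsmul_ne_zero_of_prime hp (M.ne_zero_of_coord hQ) hpQ)).mpr hpQ

end Fermat.Agent.S13.PCore
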