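import Mathlib
import Fermat.Agent.S05.Core.Defs
import Fermat.Agent.S13.Iface.DP
import Fermat.Agent.S13.PCore.Basic

/-!
# S13 / PCore / Count (one worker): at most `p²` points of order dividing `p`.
Statement FROZEN (identical to `Fermat.Agent.S13.Model.torsion_finite` of `Iface/PCore.lean`).

Proof idea: `f := (legendre α β).preΨ' p ≠ 0` (`dp_ne_zero`), `natDegree f = (p² - 1)/2`
(`natDegree_dp`, `hp.odd_of_ne_two`), so `f.roots.toFinset` has at most `(p² - 1)/2` elements
(`Polynomial.card_roots'`, `Multiset.toFinset_card_le`).  Every `Q ≠ 0` with `p • Q = 0` has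
coordinates `(X, Y)` (`Model.exists_coord_of_ne_zero`) and `X` is a root (`eval_eq_zero_of_torsion`).
Two points with the same abscissa are equal or opposite (`Model.eq_or_eq_neg_of_X_eq`).
Hence `{Q | p • Q = 0} ⊆ {0} ∪ ⋃_{x ∈ roots} {Q_x, -Q_x}` for a choice of `Q_x`, a finite set with at
most `1 + 2 * ((p² - 1)/2) ≤ p²` elements.
-/

set_option autoImplicit false

namespace Fermat.Agent.S13.PCore

open Fermat.Agent.S05 Polynomial

theorem torsion_finite {K : Type*} [Field K] {α β : K} {G : Type*} [AddCommGroup G]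
    (M : Model K α β G) {p : ℕ} (hp : p.Prime) (hp5 : 5 ≤ p) (h2 : (2 : K) ≠ 0)
    (hpK : (p : K) ≠ 0) :
    {Q : G | p • Q = 0}.Finite ∧ {Q : G | p • Q = 0}.ncard ≤ p ^ 2 := by
  classical
  have hf0 : (legendre α β).preΨ' p ≠ 0 := dp_ne_zero α β hpK
  have hodd : Odd p := hp.odd_of_ne_two (by omega)
  have hdeg : ((legendre α β).preΨ' p).natDegree = (p ^ 2 - 1) / 2 := natDegree_dp α β hodd hpK
  have hRcard : ((legendre α β).preΨ' p).roots.toFinset.card ≤ (p ^ 2 - 1) / 2 :=
    calc ((legendre α β).preΨ' p).roots.toFinset.card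
        ≤ Multiset.card ((legendre α β).preΨ' p).roots := Multiset.toFinset_card_le _
      _ ≤ ((legendre α β).preΨ' p).natDegree := Polynomial.card_roots' _
      _ = (p ^ 2 - 1) / 2 := hdeg
  let g : K → Finset G := fun x =>
    if h : ∃ Q : G, ∃ Y : K, M.coord Q = some (x, Y) then {h.choose, -h.choose} else ∅
  have hg : ∀ x, (g x).card ≤ 2 := by
    intro x
    by_cases h : ∃ Q : G, ∃ Y : K, M.coord Q = some (x, Y)
    · have : g x = {h.choose, -h.choose} := dif_pos h
      rw [this]
      exact Finset.card_le_two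
    · have : g x = ∅ := dif_neg h
      rw [this]
      simp
  have hsub : {Q : G | p • Q = 0} ⊆
      ((insert 0 (((legendre α β).preΨ' p).roots.toFinset.biUnion g) : Finset G) : Set G) := by
    intro Q hQ
    have hpQ : p • Q = 0 := hQ
    rw [Finset.mem_coe, Finset.mem_insert]
    by_cases hQ0 : Q = 0
    · exact Or.inl hQ0
    · right
      obtain ⟨X, Y, hXY⟩ := M.exists_coord_of_ne_zero hQ0
      have hroot := eval_eq_zero_of_torsion h2 M hp hp5 hXY hpQ
      have hXR : X ∈ ((legendre α β).preΨ' p).roots.toFinset := by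
        rw [Multiset.mem_toFinset, Polynomial.mem_roots hf0]
        exact hroot
      have hex : ∃ Q : G, ∃ Y : K, M.coord Q = some (X, Y) := ⟨Q, Y, hXY⟩
      have hgX : g X = {hex.choose, -hex.choose} := dif_pos hex
      have hQg : Q ∈ g X := by
        rw [hgX, Finset.mem_insert, Finset.mem_singleton]
        obtain ⟨Y₀, hY₀⟩ := hex.choose_spec
        exact M.eq_or_eq_neg_of_X_eq hY₀ hXY
      exact Finset.mem_biUnion.2 ⟨X, hXR, hQg⟩
  have hTcard : (insert 0 (((legendre α β).preΨ' p).roots.toFinset.biUnion g) : Finset G).card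
      ≤ p ^ 2 := by
    have h1 := Finset.card_insert_le (0 : G) (((legendre α β).preΨ' p).roots.toFinset.biUnion g)
    have h3 : (((legendre α β).preΨ' p).roots.toFinset.biUnion g).card
        ≤ ((legendre α β).preΨ' p).roots.toFinset.card * 2 :=
      Finset.card_biUnion_le_card_mul _ _ _ (fun x _ => hg x)
    have h4 : 1 ≤ p ^ 2 := Nat.one_le_pow _ _ hp.pos
    have h5 : (p ^ 2 - 1) / 2 * 2 ≤ p ^ 2 - 1 := Nat.div_mul_le_self _ _
    have h6 : ((legendre α β).preΨ' p).roots.toFinset.card * 2 ≤ (p ^ 2 - 1) / 2 * 2 :=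
      Nat.mul_le_mul_right 2 hRcard
    omega
  refine ⟨(Finset.finite_toSet _).subset hsub, ?_⟩
  calc {Q : G | p • Q = 0}.ncard
      ≤ ((insert 0 (((legendre α β).preΨ' p).roots.toFinset.biUnion g) : Finset G) :
          Set G).ncard := Set.ncard_le_ncard hsub (Finset.finite_toSet _)
    _ = (insert 0 (((legendre α β).preΨ' p).roots.toFinset.biUnion g) : Finset G).card :=
        Set.ncard_coe_finset _
    _ ≤ p ^ 2 := hTcard

end Fermat.Agent.S13.PCore
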