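import Mathlib

/-!
# S13 / PCore / Split (one worker): over an algebraically closed field, a polynomial all of whose
roots are integral takes at integral arguments values of valuation at most that of its leading
coefficient.  Statement FROZEN by helper10.

Proof idea: `f = C f.leadingCoeff * (f.roots.map fun r => X - C r).prod`
(`IsAlgClosed.splits`, `Polynomial.Splits…` / `C_leadingCoeff_mul_prod_multiset_X_sub_C`), so
`f.eval b = f.leadingCoeff * (f.roots.map fun r => b - r).prod` and `v (b - r) ≤ max (v b) (v r) ≤ 1`.
(The case `f = 0` is trivial.)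
-/

set_option autoImplicit false

namespace Fermat.Agent.S13.PCore

open Polynomial

theorem val_eval_le_of_roots_integral {K : Type*} [Field K] [IsAlgClosed K] {Γ₀ : Type*}
    [LinearOrderedCommGroupWithZero Γ₀] (v : Valuation K Γ₀) (f : K[X])
    (hroots : ∀ r : K, f.IsRoot r → v r ≤ 1) (b : K) (hb : v b ≤ 1) :
    v (f.eval b) ≤ v f.leadingCoeff := by
  by_cases hf0 : f = 0
  · subst hf0
    simp
  have key : ∀ s : Multiset K, (∀ r ∈ s, v r ≤ 1) → v (s.map (b - ·)).prod ≤ 1 := by
    intro s
    induction s using Multiset.induction_on with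
    | empty => intro _; simp
    | cons a s ih =>
      intro h
      rw [Multiset.map_cons, Multiset.prod_cons, map_mul]
      have h1 : v (b - a) ≤ 1 :=
        (Valuation.map_sub v b a).trans (max_le hb (h a (Multiset.mem_cons_self a s)))
      have h2 : v (s.map (b - ·)).prod ≤ 1 :=
        ih fun r hr => h r (Multiset.mem_cons_of_mem hr)
      exact mul_le_one' h1 h2
  rw [(IsAlgClosed.splits f).eval_eq_prod_roots b, map_mul]
  have h3 : v (f.roots.map (b - ·)).prod ≤ 1 :=
    key f.roots fun r hr => hroots r ((Polynomial.mem_roots hf0).mp hr)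
  calc v f.leadingCoeff * v (f.roots.map (b - ·)).prod
      ≤ v f.leadingCoeff * 1 := by gcongr
    _ = v f.leadingCoeff := mul_one _

end Fermat.Agent.S13.PCore
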