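import Mathlib
import Fermat.Agent.S05.Core.Defs
import Fermat.Agent.S05.Core.NoTorsion
import Fermat.Agent.S13.Iface.DP
import Fermat.Agent.S13.Iface.DPUnit
import Fermat.Agent.S13.PCore.Basic
import Fermat.Agent.S13.PCore.Split

/-!
# S13 / PCore / Exists (one worker): existence of a nonzero `p`-torsion point in residue
characteristic `p`.  Statement FROZEN (identical to `Fermat.Agent.S13.Model.exists_torsion` of
`Iface/PCore.lean`).

Proof idea: `f := (legendre α β).preΨ' p`, `f.leadingCoeff = p` (`leadingCoeff_dp`),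
`v (f.eval β) = 1` (`DP_unit`).  If all roots `r` of `f` had `v r ≤ 1` then
`1 = v (f.eval β) ≤ v p < 1` by `val_eval_le_of_roots_integral`: contradiction.  So there is a root
`r` with `1 < v r`.  Take `Y` with `Y ^ 2 = r * (r - α) * (r - β)` (`IsAlgClosed.exists_pow_nat_eq`)
and `Q` with `M.coord Q = some (r, Y)` (`M.exists_of_equation`); `Q ≠ 0` (`M.ne_zero_of_coord`),
`Q ∈ M.G1 v` (`M.mem_G1_of_coord`).
* If `k • Q ≠ 0` for all `1 ≤ k < p`: `DP_torsion` (with `(2 : K) ≠ 0` from `v 2 = 1`) gives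
  `p • Q = 0`.
* Otherwise `k • Q = 0` for some `1 ≤ k < p`.  Then `v (k : K) = 1`: `v (m : K) ≤ 1` for every
  natural (integer) `m`, and from Bezout `a * k + b * p = 1` and `v p < 1` one gets `1 ≤ v (a * k)`.
  `Model.G1_torsion_free` (`Fermat/Agent/S05/Core/NoTorsion.lean`) gives `Q = 0`: contradiction.
-/

set_option autoImplicit false

namespace Fermat.Agent.S13.PCore

open Fermat.Agent.S05 Polynomial

private theorem val_natCast_le_one {K : Type*} [Field K] {Γ₀ : Type*}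
    [LinearOrderedCommGroupWithZero Γ₀] (v : Valuation K Γ₀) (m : ℕ) : v (m : K) ≤ 1 := by
  induction m with
  | zero => simp
  | succ m ih =>
    rw [Nat.cast_succ]
    exact v.map_add_le ih (le_of_eq v.map_one)

private theorem val_intCast_le_one {K : Type*} [Field K] {Γ₀ : Type*}
    [LinearOrderedCommGroupWithZero Γ₀] (v : Valuation K Γ₀) (m : ℤ) : v (m : K) ≤ 1 := by
  rcases Int.eq_nat_or_neg m with ⟨n, rfl | rfl⟩
  · rw [Int.cast_natCast]
    exact val_natCast_le_one v n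
  · rw [Int.cast_neg, Int.cast_natCast, Valuation.map_neg]
    exact val_natCast_le_one v n

private theorem val_natCast_eq_one {K : Type*} [Field K] {Γ₀ : Type*}
    [LinearOrderedCommGroupWithZero Γ₀] (v : Valuation K Γ₀) {p : ℕ} (hp : p.Prime)
    (hvp : v (p : K) < 1) {k : ℕ} (hk1 : 1 ≤ k) (hkp : k < p) : v (k : K) = 1 := by
  refine le_antisymm (val_natCast_le_one v k) ?_
  by_contra hlt
  rw [not_le] at hlt
  have hcop : Nat.Coprime k p := (Nat.coprime_of_lt_prime (by omega) hkp hp).symm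
  obtain ⟨a, b, hab⟩ := Nat.isCoprime_iff_coprime.2 hcop
  have hK : (a : K) * (k : K) + (b : K) * (p : K) = 1 := by
    have := congrArg (fun z : ℤ => (z : K)) hab
    simpa using this
  have h1 : v ((a : K) * (k : K)) < 1 := by
    rw [map_mul]
    exact lt_of_le_of_lt (mul_le_of_le_one_left' (val_intCast_le_one v a)) hlt
  have h2 : v ((b : K) * (p : K)) < 1 := by
    rw [map_mul]
    exact lt_of_le_of_lt (mul_le_of_le_one_left' (val_intCast_le_one v b)) hvp
  have h3 := v.map_add_lt h1 h2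
  rw [hK, v.map_one] at h3
  exact lt_irrefl _ h3

theorem exists_torsion {K : Type*} [Field K] [IsAlgClosed K] {α β : K} {G : Type*}
    [AddCommGroup G] (M : Model K α β G) {Γ₀ : Type*} [LinearOrderedCommGroupWithZero Γ₀]
    (v : Valuation K Γ₀) (h2 : v 2 = 1) (hvα : v α ≤ 1) (hvβ : v β = 1) (hvαβ : v (α - β) = 1)
    {p : ℕ} (hp : p.Prime) (hp5 : 5 ≤ p) (hp0 : (p : K) ≠ 0) (hvp : v (p : K) < 1) :
    ∃ Q : G, Q ≠ 0 ∧ p • Q = 0 := by
  have hodd : Odd p := hp.odd_of_ne_two (by omega)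
  have h2K : (2 : K) ≠ 0 := by
    intro h
    rw [h, map_zero] at h2
    exact zero_ne_one h2
  obtain ⟨r, hr, hvr⟩ : ∃ r : K, ((legendre α β).preΨ' p).IsRoot r ∧ 1 < v r := by
    by_contra hcon
    push Not at hcon
    have h1 := val_eval_le_of_roots_integral v ((legendre α β).preΨ' p) hcon β (le_of_eq hvβ)
    rw [DP_unit v hvβ hvαβ hodd, leadingCoeff_dp α β hodd hp0] at h1
    exact absurd hvp (not_lt.2 h1)
  obtain ⟨Y, hY⟩ := IsAlgClosed.exists_pow_nat_eq (r * (r - α) * (r - β)) (n := 2) zero_lt_two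
  obtain ⟨Q, hQ⟩ := M.exists_of_equation r Y hY
  have hQ0 : Q ≠ 0 := M.ne_zero_of_coord hQ
  have hQ1 : Q ∈ M.G1 v := M.mem_G1_of_coord v hQ hvr
  refine ⟨Q, hQ0, ?_⟩
  by_cases hall : ∀ k : ℕ, 1 ≤ k → k < p → k • Q ≠ 0
  · exact (DP_torsion h2K M hQ hodd hp5 hall).1 hr
  · exfalso
    push Not at hall
    obtain ⟨k, hk1, hkp, hkQ⟩ := hall
    exact hQ0 (M.G1_torsion_free v h2 hvα (le_of_eq hvβ) hQ1
      (val_natCast_eq_one v hp hvp hk1 hkp) hkQ)

end Fermat.Agent.S13.PCore
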