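import Mathlib
import Fermat.Agent.S13.Iface.DP

/-!
# S13 / PCore / IntCoeff (one worker): the coefficients of `preΨ'ₙ` of `legendre α β` are integral
when `α, β` are.  Statement FROZEN by helper10.

Proof idea: `R := v.integer` (a subring of `K`), `α' := ⟨α, hα⟩`, `β' := ⟨β, hβ⟩ : R`;
`(legendre α' β').map R.subtype = legendre α β` (ext, five coefficients) and
`WeierstrassCurve.map_preΨ'`: `(W.map f).preΨ' n = (W.preΨ' n).map f`; then
`Polynomial.coeff_map` and the coefficient `(… : R)` has valuation `≤ 1` by definition.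
-/

set_option autoImplicit false

namespace Fermat.Agent.S13.PCore

open Polynomial

theorem val_coeff_dp_le_one {K : Type*} [Field K] {Γ₀ : Type*}
    [LinearOrderedCommGroupWithZero Γ₀] (v : Valuation K Γ₀) {α β : K} (hα : v α ≤ 1)
    (hβ : v β ≤ 1) (n i : ℕ) : v (((legendre α β).preΨ' n).coeff i) ≤ 1 := by
  have hmap : (legendre (⟨α, hα⟩ : v.integer) ⟨β, hβ⟩).map v.integer.subtype
      = legendre α β := by
    ext <;> simp [legendre, WeierstrassCurve.map]
  rw [← hmap, WeierstrassCurve.map_preΨ', Polynomial.coeff_map]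
  exact (((legendre (⟨α, hα⟩ : v.integer) ⟨β, hβ⟩).preΨ' n).coeff i).2

end Fermat.Agent.S13.PCore
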