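import Mathlib

/-!
# S13 / PCore / ValRoots (one worker): a polynomial with integral coefficients cannot have
"too many" non-integral roots.  Statement FROZEN by helper10.

Proof idea (induction on `S`): write `f = (X - C r) * g` for `r ∈ S`.  From
`f.coeff 0 = -r * g.coeff 0` and `f.coeff (i+1) = g.coeff i - r * g.coeff (i+1)` one gets by
induction on `i` that `v (r * g.coeff i) ≤ 1` (use `1 < v r`), i.e. `C r * g` has integral
coefficients; its leading coefficient is `r * f.leadingCoeff` and the elements of `S \ {r}` are
still roots of it.  Apply the induction hypothesis to `C r * g` and `S.erase r`.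
-/

set_option autoImplicit false

namespace Fermat.Agent.S13.PCore

open Polynomial

theorem val_leadingCoeff_mul_prod_le_one {K : Type*} [Field K] {Γ₀ : Type*}
    [LinearOrderedCommGroupWithZero Γ₀] (v : Valuation K Γ₀) (f : K[X])
    (hf : ∀ i : ℕ, v (f.coeff i) ≤ 1) (S : Finset K) (hS : ∀ r ∈ S, f.IsRoot r ∧ 1 < v r) :
    v f.leadingCoeff * ∏ r ∈ S, v r ≤ 1 := by
  classical
  induction S using Finset.induction_on generalizing f with
  | empty =>
    rw [Finset.prod_empty, mul_one]
    exact hf f.natDegree
  | insert r S hr ih =>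
    obtain ⟨hroot, hvr⟩ := hS r (Finset.mem_insert_self r S)
    obtain ⟨g, hg⟩ := Polynomial.dvd_iff_isRoot.mpr hroot
    have hcoeff0 : f.coeff 0 = -(r * g.coeff 0) := by
      rw [hg]; simp [Polynomial.mul_coeff_zero]
    have hcoeffS : ∀ i, f.coeff (i + 1) = g.coeff i - r * g.coeff (i + 1) := by
      intro i
      rw [hg, sub_mul, coeff_sub, coeff_X_mul, coeff_C_mul]
    have hle : ∀ x : K, v (r * x) ≤ 1 → v x ≤ 1 := by
      intro x hx
      rw [map_mul] at hx
      calc v x = 1 * v x := (one_mul _).symm
        _ ≤ v r * v x := mul_le_mul_left hvr.le _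
        _ ≤ 1 := hx
    have key : ∀ i, v (r * g.coeff i) ≤ 1 := by
      intro i
      induction i with
      | zero =>
        have h0 := hf 0
        rwa [hcoeff0, Valuation.map_neg] at h0
      | succ i ihi =>
        have h1 : r * g.coeff (i + 1) = g.coeff i - f.coeff (i + 1) := by
          rw [hcoeffS]; ring
        rw [h1]
        exact (Valuation.map_sub v _ _).trans (max_le (hle _ ihi) (hf _))
    have hlead : (C r * g).leadingCoeff = r * f.leadingCoeff := by
      rw [hg, leadingCoeff_mul, leadingCoeff_mul, leadingCoeff_C, leadingCoeff_X_sub_C, one_mul]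
    have hmain := ih (C r * g) (fun i => by rw [coeff_C_mul]; exact key i) (fun s hs => by
      obtain ⟨hsroot, hvs⟩ := hS s (Finset.mem_insert_of_mem hs)
      refine ⟨?_, hvs⟩
      have hsr : s ≠ r := fun h => hr (h ▸ hs)
      have hev : (s - r) * g.eval s = 0 := by
        have := hsroot
        rw [Polynomial.IsRoot.def, hg, eval_mul, eval_sub, eval_X, eval_C] at this
        exact this
      have hg0 : g.eval s = 0 := by
        rcases mul_eq_zero.mp hev with h | h
        · exact absurd (sub_eq_zero.mp h) hsr
        · exact h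
      rw [Polynomial.IsRoot.def, eval_mul, hg0, mul_zero])
    rw [hlead, map_mul] at hmain
    rw [Finset.prod_insert hr]
    calc v f.leadingCoeff * (v r * ∏ x ∈ S, v x)
        = v r * v f.leadingCoeff * ∏ x ∈ S, v x := by
          rw [← mul_assoc, mul_comm (v f.leadingCoeff) (v r)]
      _ ≤ 1 := hmain

end Fermat.Agent.S13.PCore
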